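/-
GATE-K / KU (helper86), file 0: the Fricke involution of `F_M = ℚ̄(X₀(M))`.

`frickeAut M : FN M ≃ₐ[ℚ̄] FN M`, `j(q^d) ↦ j(q^{M/d})`, realised on `ℍ` by `τ ↦ -1/(Mτ)`:
`realize M (frickeAut M f) = compPM (frickeP M) (realize M f)`.  It exchanges the two degeneracy
embeddings `alphaB`, `betaB : F_N → F_{Nq}`:  `frickeAut (N q) ∘ alphaB = betaB ∘ frickeAut N`.
-/
import Mathlib
import Fermat.Agent.GJ.HN.NormMer
import Fermat.Agent.GJ.HN.NormQ

set_option autoImplicit false
set_option linter.style.haveILetI false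

noncomputable section

namespace Fermat.Agent.GK.UQ

open UpperHalfPlane ModularCurve AlgebraicCurve Fermat.Agent.S24 Fermat.Agent.S24_helper82
open Fermat.Agent.S28 Fermat.Agent.S28.CuspExp
open Fermat.Agent.GJ.MerGL Fermat.Agent.GJ.HN Fermat.Agent.S24_helper62
open scoped MatrixGroups Manifold

/-! ### The Fricke matrix -/

section Matrix

variable (M : ℕ) [NeZero M]

/-- `[[0, -1], [M, 0]]` as an invertible real matrix -/
def frickeGL : GL (Fin 2) ℝ :=
  Matrix.GeneralLinearGroup.mkOfDetNeZero !![(0 : ℝ), -1; (M : ℝ), 0] (by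
    rw [Matrix.det_fin_two_of]
    have : (M : ℝ) ≠ 0 := Nat.cast_ne_zero.mpr (NeZero.ne M)
    simpa using this)

theorem val_frickeGL :
    ((frickeGL M : GL (Fin 2) ℝ) : Matrix (Fin 2) (Fin 2) ℝ) = !![(0 : ℝ), -1; (M : ℝ), 0] := rfl

theorem det_frickeGL : ((frickeGL M).det : ℝ) = M := by
  rw [Matrix.GeneralLinearGroup.val_det_apply, val_frickeGL, Matrix.det_fin_two_of]
  ring

theorem det_frickeGL_pos : 0 < ((frickeGL M).det : ℝ) := by
  rw [det_frickeGL]
  exact_mod_cast Nat.pos_of_ne_zero (NeZero.ne M)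

/-- the Fricke matrix in `GL(2, ℝ)⁺` -/
def frickeP : P := ⟨frickeGL M, det_frickeGL_pos M⟩

theorem coe_frickeP_smul (τ : ℍ) : ((frickeP M • τ : ℍ) : ℂ) = -1 / ((M : ℂ) * τ) := by
  have h : ((frickeP M : P) : GL (Fin 2) ℝ) = frickeGL M := rfl
  rw [P_smul_def, h, UpperHalfPlane.coe_smul_of_det_pos (det_frickeGL_pos M)]
  simp [UpperHalfPlane.num, UpperHalfPlane.denom, val_frickeGL]

end Matrix

/-! ### The action on the generators `j(d τ)` -/

section Jd

variable (M : ℕ) [NeZero M]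

theorem div_pos_of_dvd {d : ℕ} (hd : d ∣ M) : 0 < M / d :=
  Nat.div_pos (Nat.le_of_dvd (Nat.pos_of_ne_zero (NeZero.ne M)) hd)
    (Nat.pos_of_dvd_of_pos hd (Nat.pos_of_ne_zero (NeZero.ne M)))

theorem jDil_frickeP_smul {d : ℕ} (hd : 0 < d) (hdM : d ∣ M) (τ : ℍ) :
    jDil d hd (frickeP M • τ) = jDil (M / d) (div_pos_of_dvd M hdM) τ := by
  unfold jDil
  have h : dilate d hd (frickeP M • τ)
      = ModularGroup.S • dilate (M / d) (div_pos_of_dvd M hdM) τ := by
    apply UpperHalfPlane.ext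
    rw [coe_dilate, coe_frickeP_smul, UpperHalfPlane.modular_S_smul]
    show (d : ℂ) * (-1 / ((M : ℂ) * τ)) = (-((dilate (M / d) (div_pos_of_dvd M hdM) τ : ℍ) : ℂ))⁻¹
    rw [coe_dilate]
    obtain ⟨e, rfl⟩ := hdM
    have hd0 : (d : ℂ) ≠ 0 := Nat.cast_ne_zero.mpr hd.ne'
    have he0 : (e : ℂ) ≠ 0 := by
      have : e ≠ 0 := by
        rintro rfl
        exact NeZero.ne (d * 0) (mul_zero d)
      exact Nat.cast_ne_zero.mpr this
    have hτ : (τ : ℂ) ≠ 0 := UpperHalfPlane.ne_zero τ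
    rw [Nat.mul_div_cancel_left e hd]
    push_cast
    field_simp
  rw [h, jFun_smul]

theorem compP_frickeP_jDilHol {d : ℕ} (hd : 0 < d) (hdM : d ∣ M) :
    compP (frickeP M) (jDilHol d hd) = jDilHol (M / d) (div_pos_of_dvd M hdM) := by
  apply Subtype.ext
  funext τ
  exact jDil_frickeP_smul M hd hdM τ

end Jd

/-! ### The Fricke endomorphism of `F_M` -/

section Hom

variable (M : ℕ) [NeZero M]

/-- the index swap `d ↦ M / d` -/
def swapIdx (d : DivIdx M) : DivIdx M := ⟨M / d.1, Nat.div_dvd_of_dvd d.2⟩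

theorem swapIdx_swapIdx (d : DivIdx M) : swapIdx M (swapIdx M d) = d :=
  Subtype.ext (Nat.div_div_self d.2 (NeZero.ne M))

/-- `f ↦ (realize f) ∘ w_M` -/
def frickeHom : FN M →ₐ[Kbar] Mer := (compPMₐ (frickeP M)).comp (realize M)

theorem frickeHom_apply (f : FN M) : frickeHom M f = compPM (frickeP M) (realize M f) := rfl

theorem frickeHom_gF (d : DivIdx M) : frickeHom M (gF M d) = realize M (gF M (swapIdx M d)) := by
  show compPM (frickeP M) (realize M (jdF M d.1 d.2))
    = realize M (jdF M (swapIdx M d).1 (swapIdx M d).2)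
  rw [realize_jdF, realize_jdF, compPM_algebraMap, compP_frickeP_jDilHol M _ d.2]
  rfl

theorem frickeHom_polyF (P : MvPolynomial (DivIdx M) Kbar) :
    frickeHom M (polyF M P) = realize M (polyF M (MvPolynomial.rename (swapIdx M) P)) := by
  have h1 := MvPolynomial.comp_aeval_apply (f := gF M) (frickeHom M) P
  have h2 := MvPolynomial.comp_aeval_apply (f := fun d => gF M (swapIdx M d)) (realize M) P
  show frickeHom M (MvPolynomial.aeval (gF M) P)
    = realize M (MvPolynomial.aeval (gF M) (MvPolynomial.rename (swapIdx M) P))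
  rw [h1, MvPolynomial.aeval_rename]
  show _ = realize M (MvPolynomial.aeval (fun d => gF M (swapIdx M d)) P)
  rw [h2]
  have h3 : (fun i => frickeHom M (gF M i)) = fun i => realize M (gF M (swapIdx M i)) := by
    funext d
    exact frickeHom_gF M d
  rw [h3]

theorem frickeHom_mem_range (f : FN M) : ∃ g : FN M, realize M g = frickeHom M f := by
  obtain ⟨P, Q, hQ, h⟩ := exists_polyF_div M f
  have hQ' : frickeHom M (polyF M Q) ≠ 0 := (map_ne_zero_iff _ (frickeHom M).injective).mpr hQ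
  refine ⟨polyF M (MvPolynomial.rename (swapIdx M) P) /
    polyF M (MvPolynomial.rename (swapIdx M) Q), ?_⟩
  rw [map_div₀, ← frickeHom_polyF, ← frickeHom_polyF, ← h, map_mul, mul_div_cancel_right₀ _ hQ']

/-- the Fricke endomorphism of `F_M` -/
def frickeEnd : FN M →ₐ[Kbar] FN M where
  toFun f := (frickeHom_mem_range M f).choose
  map_one' := realize_injective M (by
    rw [(frickeHom_mem_range M 1).choose_spec, map_one, map_one])
  map_mul' a b := realize_injective M (by
    rw [(frickeHom_mem_range M (a * b)).choose_spec, map_mul, map_mul,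
      (frickeHom_mem_range M a).choose_spec, (frickeHom_mem_range M b).choose_spec])
  map_zero' := realize_injective M (by
    rw [(frickeHom_mem_range M 0).choose_spec, map_zero, map_zero])
  map_add' a b := realize_injective M (by
    rw [(frickeHom_mem_range M (a + b)).choose_spec, map_add, map_add,
      (frickeHom_mem_range M a).choose_spec, (frickeHom_mem_range M b).choose_spec])
  commutes' c := realize_injective M (by
    rw [(frickeHom_mem_range M (algebraMap Kbar (FN M) c)).choose_spec, AlgHom.commutes,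
      AlgHom.commutes])

/-- **realisation of the Fricke endomorphism**: `τ ↦ -1/(Mτ)` -/
theorem realize_frickeEnd (f : FN M) :
    realize M (frickeEnd M f) = compPM (frickeP M) (realize M f) :=
  (frickeHom_mem_range M f).choose_spec

theorem jdF_congr {d d' : ℕ} (i : NeZero d) (i' : NeZero d') (h : d = d') (hd : d ∣ M)
    (hd' : d' ∣ M) : @jdF M _ d i hd = @jdF M _ d' i' hd' := by
  subst h
  rfl

theorem frickeEnd_gF (d : DivIdx M) : frickeEnd M (gF M d) = gF M (swapIdx M d) :=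
  realize_injective M (by rw [realize_frickeEnd, ← frickeHom_apply, frickeHom_gF])

theorem frickeEnd_frickeEnd (f : FN M) : frickeEnd M (frickeEnd M f) = f := by
  have h : (frickeEnd M).comp (frickeEnd M) = AlgHom.id Kbar (FN M) := by
    apply algHom_ext_FN
    intro d _ hd
    show frickeEnd M (frickeEnd M (gF M ⟨d, hd⟩)) = gF M ⟨d, hd⟩
    rw [frickeEnd_gF, frickeEnd_gF, swapIdx_swapIdx]
  exact DFunLike.congr_fun h f

/-- **the Fricke involution** of `F_M` -/
def frickeAut : FN M ≃ₐ[Kbar] FN M :=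
  AlgEquiv.ofAlgHom (frickeEnd M) (frickeEnd M)
    (AlgHom.ext (frickeEnd_frickeEnd M)) (AlgHom.ext (frickeEnd_frickeEnd M))

@[simp] theorem frickeAut_apply (f : FN M) : frickeAut M f = frickeEnd M f := rfl

theorem realize_frickeAut (f : FN M) :
    realize M (frickeAut M f) = compPM (frickeP M) (realize M f) := realize_frickeEnd M f

theorem frickeAut_jdF (d : ℕ) [NeZero d] (hd : d ∣ M) :
    frickeAut M (jdF M d hd) = gF M (swapIdx M ⟨d, hd⟩) := frickeEnd_gF M ⟨d, hd⟩

end Hom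

/-! ### Fricke exchanges the two degeneracy embeddings -/

section Intertwine

variable (N ℓ : ℕ) [NeZero N] [NeZero ℓ]

/-- `w_{Nℓ} ∘ α = β ∘ w_N` -/
theorem frickeEnd_comp_alphaB :
    (frickeEnd (N * ℓ)).comp (alphaB N ℓ) = (betaB N ℓ).comp (frickeEnd N) := by
  apply algHom_ext_FN
  intro d _ hd
  show frickeEnd (N * ℓ) (alphaB N ℓ (jdF N d hd)) = betaB N ℓ (frickeEnd N (gF N ⟨d, hd⟩))
  rw [alphaB_jdF, frickeEnd_gF]
  show frickeEnd (N * ℓ) (gF (N * ℓ) ⟨d, hd.mul_right ℓ⟩)
    = betaB N ℓ (jdF N (swapIdx N ⟨d, hd⟩).1 (swapIdx N ⟨d, hd⟩).2)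
  rw [frickeEnd_gF, betaB_jdF]
  exact jdF_congr (N * ℓ) _ _ (Nat.div_mul_right_comm hd ℓ).symm _ _

theorem frickeEnd_alphaB (f : FN N) :
    frickeEnd (N * ℓ) (alphaB N ℓ f) = betaB N ℓ (frickeEnd N f) :=
  DFunLike.congr_fun (frickeEnd_comp_alphaB N ℓ) f

/-- `w_{Nℓ} ∘ β = α ∘ w_N` -/
theorem frickeEnd_betaB (f : FN N) :
    frickeEnd (N * ℓ) (betaB N ℓ f) = alphaB N ℓ (frickeEnd N f) := by
  have h := frickeEnd_alphaB N ℓ (frickeEnd N f)
  rw [frickeEnd_frickeEnd] at h
  rw [← h, frickeEnd_frickeEnd]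

end Intertwine

end Fermat.Agent.GK.UQ
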