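/-
GATE-K / KU (helper86), file 1: for a prime `q ∣ N` both degeneracy embeddings
`alphaB, betaB : F_N → F_{Nq}` have degree `q`.
-/
import Mathlib
import Fermat.Agent.GK.UQ.Fricke

set_option autoImplicit false
set_option linter.style.haveILetI false

noncomputable section

namespace Fermat.Agent.GK.UQ

open ModularCurve AlgebraicCurve IntermediateField Fermat.Agent.S24 Fermat.Agent.GJ.HN

/-! ### `ψ(Nq) = q ψ(N)` for `q ∣ N` -/

theorem dedekindPsi_mul_prime_of_dvd {N q : ℕ} (hN : N ≠ 0) (hq : q.Prime) (hqN : q ∣ N) :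
    dedekindPsi (N * q) = dedekindPsi N * q := by
  obtain ⟨k, m, hm, rfl⟩ := Nat.exists_eq_pow_mul_and_not_dvd hN q hq.ne_one
  have hk : 0 < k := by
    rcases Nat.eq_zero_or_pos k with rfl | hk
    · rw [pow_zero, one_mul] at hqN
      exact absurd hqN hm
    · exact hk
  have hcop : Nat.Coprime (q ^ k) m := Nat.Coprime.pow_left k ((hq.coprime_iff_not_dvd).mpr hm)
  have hcop' : Nat.Coprime (q ^ (k + 1)) m :=
    Nat.Coprime.pow_left (k + 1) ((hq.coprime_iff_not_dvd).mpr hm)
  have e : q ^ k * m * q = q ^ (k + 1) * m := by ring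
  rw [e, Fermat.Agent.S20_helper27.dedekindPsi_mul hcop,
    Fermat.Agent.S20_helper27.dedekindPsi_mul hcop',
    Fermat.Agent.S20_helper27.dedekindPsi_prime_pow hq hk,
    Fermat.Agent.S20_helper27.dedekindPsi_prime_pow hq (Nat.succ_pos k)]
  obtain ⟨j, rfl⟩ : ∃ j, k = j + 1 := ⟨k - 1, by omega⟩
  have h1 : j + 1 + 1 - 1 = j + 1 := by omega
  have h2 : j + 1 - 1 = j := by omega
  rw [h1, h2, pow_succ q (j + 1), pow_succ q j]
  ring

section Modular

variable {N q : ℕ} [NeZero N] [NeZero q]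

/-- **degree of `F_{Nq} / α(F_N)`** for a prime `q ∣ N` -/
theorem finrank_alphaB_of_dvd (hq : q.Prime) (hqN : q ∣ N) :
    letI := algebraAlong (alphaB N q)
    Module.finrank (FN N) (FN (N * q)) = q := by
  have h := finrank_adjoin_tower (alphaB N q) (jF N)
  have e1 : Module.finrank Kbar⟮jF N⟯ (FN N) = dedekindPsi N := (Fermat.Agent.S24_helper62.m9 N).2.2
  have e2 : Module.finrank Kbar⟮jF (N * q)⟯ (FN (N * q)) = dedekindPsi (N * q) :=
    (Fermat.Agent.S24_helper62.m9 (N * q)).2.2
  have e3 := dedekindPsi_mul_prime_of_dvd (NeZero.ne N) hq hqN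
  have hpos : 0 < dedekindPsi N := by
    have := Fermat.Agent.S24.Comb.card_I0 N
    rw [← this]
    exact Fintype.card_pos
  rw [alphaB_jF, e1, e2, e3] at h
  exact (Nat.eq_of_mul_eq_mul_left hpos h).symm

/-- **degree of `F_{Nq} / β(F_N)`** for a prime `q ∣ N` (transport along the Fricke involutions) -/
theorem finrank_betaB_of_dvd (hq : q.Prime) (hqN : q ∣ N) :
    letI := algebraAlong (betaB N q)
    Module.finrank (FN N) (FN (N * q)) = q := by
  refine Eq.trans ?_ (finrank_alphaB_of_dvd hq hqN)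
  symm
  refine @Algebra.finrank_eq_of_equiv_equiv (FN N) (FN (N * q)) _ _ (algebraAlong (alphaB N q))
    (FN N) (FN (N * q)) _ _ (algebraAlong (betaB N q))
    (frickeAut N).toRingEquiv (frickeAut (N * q)).toRingEquiv ?_
  refine RingHom.ext fun f => ?_
  exact (frickeEnd_alphaB N q f).symm

theorem finiteDimensional_betaB (hq : q.Prime) (hqN : q ∣ N) :
    letI := algebraAlong (betaB N q)
    FiniteDimensional (FN N) (FN (N * q)) := by
  letI := algebraAlong (betaB N q)
  apply FiniteDimensional.of_finrank_pos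
  rw [finrank_betaB_of_dvd hq hqN]
  exact hq.pos

theorem finiteAlong_betaB (hq : q.Prime) (hqN : q ∣ N) : FiniteAlong Kbar (betaB N q) :=
  finiteDimensional_betaB hq hqN

end Modular

end Fermat.Agent.GK.UQ
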