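/-
GATE-K / KU (helper86), file 2: the multiplicative `U_q`-operator on `F_N`, `q ∣ N` prime.

`uNormF N q u := Norm_{F_{Nq}/β(F_N)}(α u) ∈ F_N`  (`α` = inclusion, `β` = `q ↦ q^q`).
Its realisation on `ℍ` is helper86's analytic `U_q`-norm:

  `realize N (uNormF N q u) = heckeNormU q (realize N u) = ∏_{b mod q} (realize N u)((τ + b)/q)`.

(For `q ∣ N` the norm along `α` of `β u`, i.e. helper43's `heckeNormF` with `ℓ := q`, is the
TRANSPOSE of `U_q`, not `U_q`.)
-/
import Mathlib
import Fermat.Agent.GK.UQ.Degree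
import Fermat.Agent.GJ.HN.HN1Q
import Fermat.Agent.GJ.HInputs.OrdNorm

set_option autoImplicit false
set_option linter.style.haveILetI false

noncomputable section

namespace Fermat.Agent.GK.UQ

open UpperHalfPlane ModularCurve AlgebraicCurve Fermat.Agent.S24 Fermat.Agent.S24_helper82
open Fermat.Agent.S28 Fermat.Agent.S28.CuspExp
open Fermat.Agent.GJ.MerGL Fermat.Agent.GJ.HN Fermat.Agent.GJ.HeckeMer
open P2MW.S_ModularForm_heckeT_slash_eq_self_of_mem_Gamma0.ModularForm.HeckeSlashInvariance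
open CongruenceSubgroup Matrix Matrix.SpecialLinearGroup
open scoped MatrixGroups Manifold OnePoint

/-! ### Generalities on `compPM` -/

theorem compP_congr {g g' : P} (h : ∀ τ : ℍ, g • τ = g' • τ) (f : Hol) : compP g f = compP g' f := by
  apply Subtype.ext
  funext τ
  show (f : ℍ → ℂ) (g • τ) = (f : ℍ → ℂ) (g' • τ)
  rw [h τ]

theorem compPM_congr {g g' : P} (h : ∀ τ : ℍ, g • τ = g' • τ) (m : Mer) :
    compPM g m = compPM g' m := by
  by_cases hm : m = 0
  · subst hm; simp
  obtain ⟨a, b, ha, hb, rfl⟩ := exists_div_eq m hm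
  rw [compPM_div, compPM_div, compP_congr h, compP_congr h]

section Translation

variable (q : ℕ) [NeZero q]

/-- `diag(q,1) · [[1,b],[0,q]]` acts on `ℍ` as the translation `τ ↦ τ + b` -/
theorem heckeP_infty_mul_coe_smul (b : ZMod q) (τ : ℍ) :
    (heckeP q ∞ * heckeP q (b : OnePoint (ZMod q))) • τ
      = slP (ModularGroup.T ^ (b.val : ℤ)) • τ := by
  apply UpperHalfPlane.ext
  have hq0 : (q : ℂ) ≠ 0 := Nat.cast_ne_zero.mpr (NeZero.ne q)
  rw [mul_smul, coe_heckeP_infty_smul, coe_heckeP_coe_smul, slP_smul,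
    ModularGroup.coe_T_zpow_smul_eq]
  push_cast
  field_simp

theorem T_zpow_mem_Gamma0 (N : ℕ) (n : ℤ) : ModularGroup.T ^ n ∈ Gamma0 N := by
  rw [Gamma0_mem, ModularGroup.coe_T_zpow]
  simp

end Translation

/-! ### The `q` embeddings of `F_{Nq}` over `β(F_N)` -/

section Emb

variable {N q : ℕ} [NeZero N] [NeZero q]

/-- `f ↦ (realize f)((τ + b)/q)` on `F_{Nq}` -/
def sigU (N q : ℕ) [NeZero N] [NeZero q] (b : ZMod q) : FN (N * q) →ₐ[Kbar] Mer :=
  (compPMₐ (heckeP q (b : OnePoint (ZMod q)))).comp (realize (N * q))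

theorem sigU_apply (b : ZMod q) (f : FN (N * q)) :
    sigU N q b f = compPM (heckeP q (b : OnePoint (ZMod q))) (realize (N * q) f) := rfl

/-- on `β(F_N)` all the `sigU b` are the realisation of `F_N` -/
theorem sigU_betaB (b : ZMod q) (f : FN N) : sigU N q b (betaB N q f) = realize N f := by
  rw [sigU_apply, realize_betaB, ← compPM_mul,
    compPM_congr (heckeP_infty_mul_coe_smul q b), compPM_slP,
    compM_realize_of_mem_Gamma0 N (T_zpow_mem_Gamma0 N _)]

/-- on `α(F_N)` the embedding `sigU b` is `u ↦ u((τ + b)/q)` -/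
theorem sigU_alphaB (b : ZMod q) (u : FN N) :
    sigU N q b (alphaB N q u) = compPM (heckeP q (b : OnePoint (ZMod q))) (realize N u) := by
  rw [sigU_apply, realize_alphaB]

end Emb

/-! ### Distinctness of the translates of `j` -/

section Inj

variable {q : ℕ} [Fact q.Prime]

/-- the functions `j((τ + b)/q)`, `b mod q`, and `j(qτ)` are pairwise distinct -/
theorem heckeP_injective_on_j {x y : OnePoint (ZMod q)}
    (h : compPM (heckeP q x) (algebraMap Hol Mer (jDilHol 1 one_pos))
      = compPM (heckeP q y) (algebraMap Hol Mer (jDilHol 1 one_pos))) : x = y := by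
  have hq : q.Prime := Fact.out
  have hq1 : ¬ q ∣ 1 := hq.not_dvd_one
  obtain ⟨γ, hγ, hγx⟩ := exists_rep (N := 1) hq1 x
  obtain ⟨γ', hγ', hγy⟩ := exists_rep (N := 1) hq1 y
  have e1 := Sig_inv_betaB hq1 hγ (jF 1)
  have e2 := Sig_inv_betaB hq1 hγ' (jF 1)
  rw [hγx, realize_jF] at e1
  rw [hγy, realize_jF] at e2
  have h1 : Sig (1 * q) γ⁻¹ (betaB 1 q (jF 1)) = Sig (1 * q) γ'⁻¹ (betaB 1 q (jF 1)) := by
    rw [e1, e2, h]
  have hb : betaB 1 q (jF 1) = jdF (1 * q) (1 * q) dvd_rfl := betaB_jdF 1 q (one_dvd 1)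
  rw [hb] at h1
  have h2 := coset_eq_of_Sig_eq (1 * q) h1
  have h3 : (γ⁻¹)⁻¹ * γ'⁻¹ ∈ Gamma0 (1 * q) := QuotientGroup.eq.mp h2
  rw [inv_inv] at h3
  have h4 : (q : ℤ) ∣ (γ * γ'⁻¹) 1 0 := by
    have := Fermat.Agent.S16_helper49.dvd_of_mem_Gamma0 (⟨_, h3⟩ : Gamma0 (1 * q))
    exact dvd_trans (by push_cast; exact dvd_mul_left _ _) this
  rw [← infPt_eq_infty_iff, infPt_mul, hγx] at h4
  have h5 : redMatrix q γ' • redMatrix q γ'⁻¹ • x = redMatrix q γ' • ∞ :=
    congrArg (fun z => redMatrix q γ' • z) h4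
  rw [redMatrix_inv_smul] at h5
  rw [h5]
  exact hγy

end Inj

/-! ### The `U_q`-norm -/

section Norm

variable {N q : ℕ} [NeZero N] [Fact q.Prime]

/-- **the multiplicative `U_q`-operator on `F_N`**: `Norm_{F_{Nq}/β(F_N)}(α u)` -/
def uNormF (N q : ℕ) [NeZero N] [NeZero q] (u : FN N) : FN N :=
  Fermat.Agent.GJ.HInputs.normAlong (betaB N q) (alphaB N q u)

theorem uNormF_def (u : FN N) :
    uNormF N q u = @Algebra.norm (FN N) (FN (N * q)) _ _ (algebraAlong (betaB N q))
      (alphaB N q u) := rfl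

/-- **the realisation of `U_q u`** is the analytic `U_q`-norm -/
theorem realize_uNormF (hqN : q ∣ N) (u : FN N) :
    realize N (uNormF N q u) = heckeNormU q (realize N u) := by
  have hq : q.Prime := Fact.out
  rw [uNormF_def]
  letI : Algebra (FN N) (FN (N * q)) := algebraAlong (betaB N q)
  letI : Algebra (FN N) Mer := (realize N).toRingHom.toAlgebra
  haveI : FiniteDimensional (FN N) (FN (N * q)) := finiteDimensional_betaB hq hqN
  haveI : Algebra.IsSeparable (FN N) (FN (N * q)) := inferInstance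
  let s : ZMod q → (FN (N * q) →ₐ[FN N] Mer) := fun b =>
    { toRingHom := (sigU N q b).toRingHom
      commutes' := fun f => sigU_betaB b f }
  have hs : ∀ b (f : FN (N * q)), s b f = sigU N q b f := fun b f => rfl
  have hinj : Function.Injective s := by
    intro b b' hbb'
    have h1 := DFunLike.congr_fun hbb' (alphaB N q (jF N))
    rw [hs, hs, sigU_alphaB, sigU_alphaB, realize_jF] at h1
    exact OnePoint.coe_injective (heckeP_injective_on_j h1)
  have hcard : Fintype.card (ZMod q) = Module.finrank (FN N) (FN (N * q)) := by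
    rw [finrank_betaB_of_dvd hq hqN, ZMod.card]
  have key := norm_eq_prod_of_embeddings s hinj hcard (alphaB N q u)
  rw [heckeNormU_apply]
  refine key.trans (Finset.prod_congr rfl fun b _ => ?_)
  rw [hs, sigU_alphaB, compMGL_eq_compPM]
  rfl

theorem uNormF_ne_zero (hqN : q ∣ N) {u : FN N} (hu : u ≠ 0) : uNormF N q u ≠ 0 := by
  intro h
  have h1 := realize_uNormF hqN u
  rw [h, map_zero] at h1
  exact heckeNormU_ne_zero q ((map_ne_zero_iff _ (realize_injective N)).mpr hu) h1.symm

theorem uNormF_mul (hqN : q ∣ N) (u v : FN N) :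
    uNormF N q (u * v) = uNormF N q u * uNormF N q v := by
  apply realize_injective N
  rw [map_mul, realize_uNormF hqN, realize_uNormF hqN, realize_uNormF hqN, map_mul, map_mul]

theorem uNormF_one (hqN : q ∣ N) : uNormF N q (1 : FN N) = 1 := by
  apply realize_injective N
  rw [realize_uNormF hqN, map_one, map_one]

end Norm

end Fermat.Agent.GK.UQ
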