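/-
GATE-K / KU (helper86), file 3: the `q`-expansion of the multiplicative `U_q`-operator.

For a prime `q ∣ N` and `u ∈ F_N ⊆ ℚ̄((q))`:
  `(uNormF N q u : ℚ̄((q))) = Kum.normL q u`   (`= ∏_{b<q} u(ζ^b q^{1/q})`, root-of-unity free),
and the `U`-twin `hn1Q_U` of `EigAsm.HN1Q`.
-/
import Mathlib
import Fermat.Agent.GK.UQ.NormMer
import Fermat.Agent.GJ.Kum.ZetaProd
import Fermat.Agent.GJ.J2.EigData

set_option autoImplicit false
set_option linter.style.haveILetI false

noncomputable section

namespace Fermat.Agent.GK.UQ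

open UpperHalfPlane ModularCurve AlgebraicCurve Fermat.Agent.S24 Fermat.Agent.S24_helper82
open Fermat.Agent.S24_helper62
open Fermat.Agent.S28 Fermat.Agent.S28.CuspExp
open Fermat.Agent.GJ.MerGL Fermat.Agent.GJ.HN Fermat.Agent.GJ.HeckeMer Fermat.Agent.GJ
open scoped MatrixGroups Manifold OnePoint

/-! ### The two sides of the norm formula as functionals on Laurent series -/

section Psi

variable (q : ℕ) [Fact q.Prime]

/-- `y ↦ ∏_b y(ξ^b s)` over `ℂ` -/
def PsiC (y : LaurentSeries ℂ) : LaurentSeries ℂ :=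
  ∏ b : ZMod q, scaleHom ℂ (xiC q ^ b.val) y

/-- `y ↦ ∏_b y(ζ^b s)` over `ℚ̄` -/
def PsiK (y : LaurentSeries Kbar) : LaurentSeries Kbar :=
  ∏ b : ZMod q, scaleHom Kbar (zetaBar q ^ b.val) y

theorem coeffMap_PsiK (y : LaurentSeries Kbar) :
    coeffMap iotaC (PsiK q y) = PsiC q (coeffMap iotaC y) := by
  rw [PsiK, PsiC, map_prod]
  refine Finset.prod_congr rfl fun b _ => ?_
  rw [coeffMap_scaleHom, map_pow]
  rfl

theorem PsiK_mul (x y : LaurentSeries Kbar) : PsiK q (x * y) = PsiK q x * PsiK q y := by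
  simp only [PsiK, map_mul, Finset.prod_mul_distrib]

theorem PsiK_ne_zero {y : LaurentSeries Kbar} (hy : y ≠ 0) : PsiK q y ≠ 0 := by
  rw [PsiK]
  exact Finset.prod_ne_zero_iff.mpr fun b _ => (map_ne_zero_iff _ (Fermat.Agent.GJ.HN.scaleHom_injective _)).mpr hy

end Psi

/-! ### Assembly -/

section Assembly

variable {N q : ℕ} [NeZero N] [Fact q.Prime]

/-- the product of the `q` translates of a polynomial function, with its cusp expansion -/
theorem cuspExp_prod_compP_U (P : MvPolynomial (DivIdx N) Kbar) :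
    IsCE q (∏ b : ZMod q,
        ((compP (heckeP q (b : OnePoint (ZMod q))) (polyHol N P) : Hol) : ℍ → ℂ)) ∧
      cuspExp q (∏ b : ZMod q,
        ((compP (heckeP q (b : OnePoint (ZMod q))) (polyHol N P) : Hol) : ℍ → ℂ))
        = PsiC q (cm (polyF N P)) := by
  have hq : (0 : ℝ) < q := by exact_mod_cast (Fact.out : q.Prime).pos
  have hf := isCE_polyHol N P
  obtain ⟨h1, h2⟩ := isCE_prod hq Finset.univ
    (fun b : ZMod q =>
      ((compP (heckeP q (b : OnePoint (ZMod q))) (polyHol N P) : Hol) : ℍ → ℂ))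
    (fun b _ => (isCE_comp_heckeP_coe hf b).1)
  refine ⟨h1, ?_⟩
  rw [h2, PsiC]
  refine Finset.prod_congr rfl fun b _ => ?_
  exact ((isCE_comp_heckeP_coe hf b).2).trans (by rw [cuspExp_polyHol]; rfl)

/-- **the `q`-expansion of `U_q` on polynomial elements.** -/
theorem coe_uNormF_polyF (hqN : q ∣ N) (P : MvPolynomial (DivIdx N) Kbar) :
    qExpand Kbar q ((uNormF N q (polyF N P) : FN N) : LaurentSeries Kbar)
      = PsiK q ((polyF N P : FN N) : LaurentSeries Kbar) := by
  set w : FN N := uNormF N q (polyF N P) with hw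
  obtain ⟨P', Q', hQ', hPQ⟩ := exists_polyF_div N w
  -- the identity in `Mer`, then in `Hol`
  have hM := realize_uNormF hqN (polyF N P)
  rw [← hw, realize_polyF, heckeNormU_apply] at hM
  have hM2 : realize N w =
      algebraMap Hol Mer (∏ b : ZMod q,
        compP (heckeP q (b : OnePoint (ZMod q))) (polyHol N P)) := by
    rw [hM, map_prod]
    refine Finset.prod_congr rfl fun b _ => ?_
    rw [compMGL_eq_compPM, ← compPM_algebraMap]
    rfl
  have hR := congrArg (realize N) hPQ
  rw [map_mul, realize_polyF, realize_polyF, hM2, ← map_mul] at hR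
  have hH := IsFractionRing.injective Hol Mer hR
  -- as functions on the upper half plane
  have hF := congrArg (fun f : Hol => (f : ℍ → ℂ)) hH
  have hval : ((∏ b : ZMod q,
        compP (heckeP q (b : OnePoint (ZMod q))) (polyHol N P) : Hol) : ℍ → ℂ)
      = ∏ b : ZMod q,
        ((compP (heckeP q (b : OnePoint (ZMod q))) (polyHol N P) : Hol) : ℍ → ℂ) :=
    map_prod Hol.val _ _
  have hF' : (∏ b : ZMod q,
        ((compP (heckeP q (b : OnePoint (ZMod q))) (polyHol N P) : Hol) : ℍ → ℂ))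
      * ((polyHol N Q' : Hol) : ℍ → ℂ) = ((polyHol N P' : Hol) : ℍ → ℂ) := by
    rw [← hval]
    exact hF
  -- cusp expansions of width `q`
  have hq : (0 : ℝ) < q := by exact_mod_cast (Fact.out : q.Prime).pos
  obtain ⟨hG1, hG2⟩ := cuspExp_prod_compP_U (q := q) P
  have hQce := (isCE_polyHol N Q').period_nat q
  have hE := congrArg (cuspExp q) hF'
  rw [cuspExp_mul hq hG1 hQce, hG2, cuspExp_period_nat (isCE_polyHol N Q') q,
    cuspExp_period_nat (isCE_polyHol N P') q, cuspExp_polyHol, cuspExp_polyHol] at hE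
  -- compare with the algebraic relation
  have hA : qExpand ℂ q (cm w) * qExpand ℂ q (cm (polyF N Q')) = qExpand ℂ q (cm (polyF N P')) := by
    rw [← map_mul, ← cm_mul, hPQ]
  have hne : qExpand ℂ q (cm (polyF N Q')) ≠ 0 :=
    (map_ne_zero_iff _ (qExpand_injective q)).mpr (cm_ne_zero hQ')
  have hfin : qExpand ℂ q (cm w) = PsiC q (cm (polyF N P)) := by
    apply mul_right_cancel₀ hne
    rw [hA]
    exact hE.symm
  apply EvalBridge.coeffMap_injective iotaC iotaC_injective
  rw [coeffMap_qExpand, coeffMap_PsiK]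
  exact hfin

/-- **the `q`-expansion of `U_q`**, functional form. -/
theorem coe_uNormF_PsiK (hqN : q ∣ N) (u : FN N) :
    qExpand Kbar q ((uNormF N q u : FN N) : LaurentSeries Kbar)
      = PsiK q (u : LaurentSeries Kbar) := by
  obtain ⟨P, Q, hQ, hPQ⟩ := exists_polyF_div N u
  have hP := coe_uNormF_polyF hqN P
  have hQ2 := coe_uNormF_polyF hqN Q
  have hnorm : uNormF N q u * uNormF N q (polyF N Q) = uNormF N q (polyF N P) := by
    rw [← uNormF_mul hqN, hPQ]
  have hcoe := congrArg (fun f : FN N => qExpand Kbar q (f : LaurentSeries Kbar)) hnorm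
  have hcoe' : qExpand Kbar q ((uNormF N q u : FN N) : LaurentSeries Kbar) *
      qExpand Kbar q ((uNormF N q (polyF N Q) : FN N) : LaurentSeries Kbar)
      = qExpand Kbar q ((uNormF N q (polyF N P) : FN N) : LaurentSeries Kbar) := by
    rw [← map_mul]
    exact hcoe
  rw [hP, hQ2] at hcoe'
  have hQne : ((polyF N Q : FN N) : LaurentSeries Kbar) ≠ 0 := fun h => hQ (Subtype.ext h)
  have hmul : PsiK q (u : LaurentSeries Kbar) * PsiK q ((polyF N Q : FN N) : LaurentSeries Kbar)
      = PsiK q ((polyF N P : FN N) : LaurentSeries Kbar) := by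
    rw [← PsiK_mul]
    congr 1
    exact congrArg (fun f : FN N => (f : LaurentSeries Kbar)) hPQ
  apply mul_right_cancel₀ (PsiK_ne_zero q hQne)
  rw [hcoe', hmul]

/-- **(U-HN1), series half**: the `q`-expansion of `U_q u` is helper44's root-of-unity-free
norm series `Kum.normL q u`. -/
theorem coe_uNormF (hqN : q ∣ N) (u : FN N) :
    ((uNormF N q u : FN N) : LaurentSeries Kbar) = Kum.normL q (u : LaurentSeries Kbar) := by
  apply qExpand_injective q
  rw [coe_uNormF_PsiK hqN u, PsiK,
    prod_zmod_val q (fun b => scaleHom Kbar (zetaBar q ^ b) (u : LaurentSeries Kbar)),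
    Kum.qExpand_normL_eq_prod q (zetaBar q)
      (IsPrimitiveRoot.coe_units_iff.mpr (zetaBar_isPrimitiveRoot q))]

end Assembly

/-! ### The `U`-twin of `EigAsm.HN1Q` -/

section HN1QU

open Fermat.Agent.GJ.EigAsm Fermat.Agent.GJ.KumGroup

/-- **(HN1Q-U)**: for a prime `q ∣ N` and `u ∈ F_N` there is `Uu ∈ F_N` whose `q`-expansion is the
series `U_q`-norm of `u` and whose realisation on `ℍ` is the analytic `U_q`-norm. -/
theorem hn1Q_U (N : ℕ) [NeZero N] (q : ℕ) [Fact q.Prime] (hqN : q ∣ N) (u : FK N) :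
    ∃ Uu : FK N, (Uu : LaurentSeries Kb) = Kum.normL q (u : LaurentSeries Kb) ∧
      realQ N Uu = heckeNormU q (realQ N u) :=
  ⟨uNormF N q u, coe_uNormF hqN u, realize_uNormF hqN u⟩

end HN1QU

end Fermat.Agent.GK.UQ
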