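/-
GATE-K / KU (helper86), file 4: the operator `U_q` on the Kummer groups `Kum(F_N, m)`, `q ∣ N` prime.

* `dvd_ord_uNormF`   : `U_q` preserves "`m` divides the divisor";
* `UEnd N m hqN`     : the `ℤ/m`-linear endomorphism `[u] ↦ [U_q u]` of `Additive (Kum ℚ̄ (FK N) m)`;
* `UEnd_mk`, `coe_uNormUnits` : `U_q u` has `q`-expansion `Kum.normL q u`;
* `UEnd_comm_gal`    : `U_q` commutes with the coefficientwise Galois action `KumType.gal`;
* `theta_cohU`, `thetaQ_cohU` : the Kummer isomorphism `theta : GoodHom N m ≃ Kum` intertwines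
  `cohU` (the `U_q`-operator on characters of `Γ₀(N)`) with `U_q` on functions.
-/
import Mathlib
import Fermat.Agent.GK.UQ.NormSeries
import Fermat.Agent.GJ.Kum.KumType
import Fermat.Agent.GJ.J2.Tower.ThetaQ

set_option autoImplicit false
set_option linter.style.haveILetI false
set_option linter.unusedSectionVars false

noncomputable section

namespace Fermat.Agent.GK.UQ

open AlgebraicCurve ModularCurve Fermat.Agent.S24 Fermat.Agent.S24_helper82
open Fermat.Agent.GJ Fermat.Agent.GJ.HN Fermat.Agent.GJ.HeckeMer Fermat.Agent.GJ.KumCore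
open Fermat.Agent.GJ.KumGroup Fermat.Agent.GJ.Kum.KumType Fermat.Agent.GJ.KumTower
open Fermat.Agent.GJ.EigAsm CongruenceSubgroup
open Fermat.Agent.S16_helper49 (cohU)
open scoped MatrixGroups

local notation "GQ" => (AlgebraicClosure ℚ ≃ₐ[ℚ] AlgebraicClosure ℚ)

/-! ### Divisibility of divisors -/

section Div

variable {N q : ℕ} [NeZero N] [Fact q.Prime]

/-- **(U-HN2)** `U_q` preserves "`p` divides the divisor". -/
theorem dvd_ord_uNormF (hqN : q ∣ N) (p : ℤ) (u : FN N)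
    (hu : ∀ P : Place Kbar (FN N), p ∣ P.ord u) (P : Place Kbar (FN N)) :
    p ∣ P.ord (uNormF N q u) := by
  have hq : q.Prime := Fact.out
  obtain ⟨hα, hβ, hP, -, -, -⟩ := Fermat.Agent.GJ.HInputs.heckeInputsAlong_bar N q
  exact Fermat.Agent.GJ.HInputs.dvd_ord_normAlong (alphaB N q) (betaB N q) hα hβ
    (finiteAlong_betaB hq hqN)
    (fun v => PlaceB.deg_eq_one v (jF N) (hx := Fermat.Agent.S24_helper62.isGen_jF N)) p u hu P

end Div

/-! ### `U_q` on units and on the Kummer group -/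

section Kum

variable {N q : ℕ} [NeZero N] [Fact q.Prime]

/-- `U_q` as a monoid endomorphism of `F_N` -/
def uNormHom (hqN : q ∣ N) : FK N →* FK N where
  toFun := uNormF N q
  map_one' := uNormF_one hqN
  map_mul' := uNormF_mul hqN

/-- `U_q` on the units of `F_N` -/
def uNormUnits (hqN : q ∣ N) : (FK N)ˣ →* (FK N)ˣ := Units.map (uNormHom hqN)

@[simp] theorem coe_uNormUnits (hqN : q ∣ N) (u : (FK N)ˣ) :
    ((uNormUnits hqN u : (FK N)ˣ) : FK N) = uNormF N q (u : FK N) := rfl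

/-- the `q`-expansion of `U_q u` is the series norm `Kum.normL q u` -/
theorem series_uNormUnits (hqN : q ∣ N) (u : (FK N)ˣ) :
    ((((uNormUnits hqN u : (FK N)ˣ) : FK N)) : LaurentSeries Kb)
      = Kum.normL q (((u : FK N)) : LaurentSeries Kb) :=
  coe_uNormF hqN (u : FK N)

theorem uNormUnits_mem (hqN : q ∣ N) (m : ℕ) (u : (FK N)ˣ) (hu : u ∈ pDivUnits Kb (FK N) m) :
    uNormUnits hqN u ∈ pDivUnits Kb (FK N) m :=
  fun P => dvd_ord_uNormF hqN (m : ℤ) (u : FK N) hu P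

/-- **`U_q` on the Kummer group** `Kum(F_N, m)` -/
def UEnd (N m : ℕ) [NeZero N] {q : ℕ} [Fact q.Prime] (hqN : q ∣ N) :
    Module.End (ZMod m) (Additive (Kum Kb (FK N) m)) :=
  kumEnd (uNormUnits hqN) (uNormUnits_mem hqN m)

theorem UEnd_mk (m : ℕ) (hqN : q ∣ N) (u : pDivUnits Kb (FK N) m) :
    UEnd N m hqN (Additive.ofMul (Kum.mk u)) =
      Additive.ofMul (Kum.mk ⟨uNormUnits hqN u, uNormUnits_mem hqN m u u.2⟩) := rfl

/-- `U_q` commutes with the coefficientwise Galois action on units -/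
theorem galUnits_uNormUnits (hqN : q ∣ N) (σ : GQ) (u : (FK N)ˣ) :
    galUnits N σ (uNormUnits hqN u) = uNormUnits hqN (galUnits N σ u) := by
  apply Units.ext
  apply Subtype.ext
  rw [coe_galUnits, series_uNormUnits]
  show coeffMap ((σ : Kb ≃ₐ[ℚ] Kb) : Kb →+* Kb)
      ((((uNormUnits hqN u : (FK N)ˣ) : FK N)) : LaurentSeries Kb) = _
  rw [series_uNormUnits, Kum.coeffMap_normL]
  rfl

/-- **`U_q` commutes with the Galois action** on `Kum(F_N, m)` -/
theorem UEnd_comm_gal (m : ℕ) (hqN : q ∣ N) (σ : GQ) :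
    gal N m σ * UEnd N m hqN = UEnd N m hqN * gal N m σ := by
  refine LinearMap.ext fun x => ?_
  obtain ⟨u, rfl⟩ := exists_rep x
  show gal N m σ (UEnd N m hqN (Additive.ofMul (Kum.mk u)))
    = UEnd N m hqN (gal N m σ (Additive.ofMul (Kum.mk u)))
  rw [UEnd_mk, gal_mk, gal_mk, UEnd_mk]
  exact congrArg (fun v => Additive.ofMul (Kum.mk v))
    (Subtype.ext (galUnits_uNormUnits hqN σ (u : (FK N)ˣ)))

end Kum

/-! ### Compatibility with the Kummer isomorphism `theta` -/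

section Theta

variable {N : ℕ} {m : ℕ} [NeZero m] {K F : Type*} [Field K] [Field F] [Algebra K F]
  {real : F →+* Mer} {ζ : ℂ}

theorem isGood_cohU {A : Type*} [AddCommGroup A] {ψ : Additive (Gamma0 N) →+ A}
    (h : IsGood N ψ) {q : ℕ} [NeZero q] (hqN : q ∣ N) : IsGood N (cohU hqN A ψ) :=
  ⟨Fermat.Agent.GJ.J2.Lat.cohU_isParabolicHom hqN ψ h.1,
    Fermat.Agent.GJ.J2.Lat.cohU_kills_finOrder hqN ψ h.2⟩

/-- the operator `U_q` on good characters -/
def cohUGood {q : ℕ} [NeZero q] (hqN : q ∣ N) (ψ : GoodHom N m) : GoodHom N m :=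
  ⟨cohU hqN (ZMod m) ψ.1, isGood_cohU ψ.2 hqN⟩

@[simp] theorem coe_cohUGood {q : ℕ} [NeZero q] (hqN : q ∣ N) (ψ : GoodHom N m) :
    (cohUGood hqN ψ : Additive (Gamma0 N) →+ ZMod m) = cohU hqN (ZMod m) ψ.1 := rfl

/-- **(T3-U)** `theta` intertwines `U_q` on characters with the multiplicative `U_q`-norm on
functions. -/
theorem theta_cohU (H : ThetaHyp K N m real ζ) (hζ : IsPrimitiveRoot ζ m) (ψ : GoodHom N m)
    {q : ℕ} [NeZero q] (hqN : q ∣ N) (u : pDivUnits K F m)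
    (hu : theta H hζ ψ = Additive.ofMul (Kum.mk u)) (Uu : F)
    (hUu : real Uu = heckeNormU q (real ((u : Fˣ) : F))) :
    ∃ Uu' : pDivUnits K F m, ((Uu' : Fˣ) : F) = Uu ∧
      theta H hζ (cohUGood hqN ψ) = Additive.ofMul (Kum.mk Uu') := by
  obtain ⟨h, D⟩ := (theta_eq_iff H hζ ψ u).mp hu
  have DU := D.heckeNormU hζ.pow_eq_one hqN hUu
  have hgood : IsGood N (cohU hqN (ZMod m) ψ.1) := isGood_cohU ψ.2 hqN
  refine ⟨⟨Units.mk0 Uu DU.ne_zero, fun P => H.pdiv _ _ Uu hgood DU P⟩, rfl, ?_⟩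
  rw [theta_eq_iff]
  exact ⟨_, DU⟩

end Theta

section ThetaQ

variable {N : ℕ} [NeZero N] {m : ℕ} [NeZero m] {ζ : ℂ} {q : ℕ} [Fact q.Prime]

/-- **(T3-U) over `ℚ̄`, unconditional**: `thetaQ (U_q ψ) = U_q (thetaQ ψ)`. -/
theorem thetaQ_cohU (hζ : IsPrimitiveRoot ζ m) (hqN : q ∣ N) (ψ : GoodHom N m) :
    thetaQ N m hζ (cohUGood hqN ψ) = UEnd N m hqN (thetaQ N m hζ ψ) := by
  obtain ⟨u, hu⟩ := exists_rep (thetaQ N m hζ ψ)
  obtain ⟨Uu', hUu', hθ⟩ := theta_cohU (thetaHypQ N m hζ) hζ ψ hqN u hu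
    (uNormF N q ((u : (FK N)ˣ) : FK N)) (realize_uNormF hqN _)
  rw [hu, UEnd_mk]
  refine hθ.trans (congrArg (fun v => Additive.ofMul (Kum.mk v)) (Subtype.ext (Units.ext ?_)))
  rw [hUu']
  rfl

end ThetaQ

end Fermat.Agent.GK.UQ
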