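/-
GATE-K / KU (helper86), file 5: `U_q` on the lattice `Λ = Lam N` versus `U_q` on `Kum(F_N, m)`.

* `thetaLat_latT_of_dvd` : `thetaLat (latT q Φ) = UEnd (thetaLat Φ)` for a prime `q ∣ N`
  (`latT N ⟨q, _⟩ = cohU` on the lattice, helper64);
* `thetaLat_latAct_U`    : the same with `latAct N S (heckeAlgebra.U hq hqN hqS)` (`q ∉ S`);
* `thetaLat_latT_of_not_dvd` : `thetaLat (latT ℓ Φ) = TEnd (thetaLat Φ)` for `ℓ ∤ N` (End form of
  helper63's relational Hecke clause);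
* `latT_commute_latAct`  : `latT N l` commutes with the action of every Hecke algebra `T^S` on `Λ`;
* `UEnd_comm_TEnd`       : `U_q` and `T_ℓ` commute on `Kum(F_N, m)`;
* `UEnd_thetaLat_latAct` : `U_q (θ (t • Φ)) = θ (t • U_q Φ)` for `t ∈ T^S`.
-/
import Mathlib
import Fermat.Agent.GK.UQ.KumU
import Fermat.Agent.GJ.J2.Tower.ThetaLat

set_option autoImplicit false
set_option linter.style.haveILetI false
set_option linter.unusedSectionVars false

noncomputable section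

namespace Fermat.Agent.GK.UQ

open AlgebraicCurve ModularCurve ModularCurve.Period CuspForm CongruenceSubgroup
open Fermat.Agent.GJ Fermat.Agent.GJ.KumGroup Fermat.Agent.GJ.Kum.KumType Fermat.Agent.GJ.KumTower
open Fermat.Agent.GJ.J2.Lat Fermat.Agent.GJ.J2.LatMod Fermat.Agent.GJ.J2.LatAct
open Fermat.Agent.S16_helper49 (cohU cohGen cohGen_of_dvd)
open scoped MatrixGroups

variable (N : ℕ) [NeZero N] (m : ℕ) [NeZero m] {ζ : ℂ}

/-- Hecke equivariance of the reduction `Λ → GoodHom N m` for `U_q`, `q ∣ N` -/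
theorem redGoodLat_latT_of_dvd {q : ℕ} [hF : Fact q.Prime] (hqN : q ∣ N) (Φ : Lam N) :
    redGoodLat N m (latT N (⟨q, hF.out⟩ : Nat.Primes) Φ) = cohUGood hqN (redGoodLat N m Φ) := by
  apply Subtype.ext
  refine (redP_latT N m (⟨q, hF.out⟩ : Nat.Primes) Φ).trans ?_
  exact DFunLike.congr_fun
    (cohGen_of_dvd (N := N) (ZMod m) (⟨q, hF.out⟩ : Nat.Primes) hqN) _

/-- **`thetaLat` intertwines `U_q` on the lattice with `U_q` on the Kummer group.** -/
theorem thetaLat_latT_of_dvd (hζ : IsPrimitiveRoot ζ m) {q : ℕ} [hF : Fact q.Prime] (hqN : q ∣ N)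
    (Φ : Lam N) :
    thetaLat N m hζ (latT N (⟨q, hF.out⟩ : Nat.Primes) Φ) = UEnd N m hqN (thetaLat N m hζ Φ) := by
  rw [thetaLat_apply, thetaLat_apply, redGoodLat_latT_of_dvd, thetaQ_cohU]

/-- the same for the element `U_q` of the Hecke algebra away from `S ∌ q` -/
theorem thetaLat_latAct_U (hζ : IsPrimitiveRoot ζ m) (S : Set ℕ) {q : ℕ} [hF : Fact q.Prime]
    (hqN : q ∣ N) (hqS : q ∉ S) (Φ : Lam N) :
    thetaLat N m hζ (latAct N S (CuspForm.heckeAlgebra.U hF.out hqN hqS) Φ)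
      = UEnd N m hqN (thetaLat N m hζ Φ) := by
  rw [latAct_U]
  exact thetaLat_latT_of_dvd N m hζ hqN Φ

/-- **`thetaLat` intertwines `T_ℓ` on the lattice with `TEnd` on the Kummer group**, `ℓ ∤ N`. -/
theorem thetaLat_latT_of_not_dvd (hζ : IsPrimitiveRoot ζ m) {ℓ : ℕ} [hF : Fact ℓ.Prime]
    (hℓN : ¬ ℓ ∣ N) (hM : @HNMemHyp N ℓ) (hD : @HNDivHyp N m ℓ) (Φ : Lam N) :
    haveI : NeZero ℓ := ⟨hF.out.ne_zero⟩
    thetaLat N m hζ (latT N (⟨ℓ, hF.out⟩ : Nat.Primes) Φ) = TEnd hM hD (thetaLat N m hζ Φ) := by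
  haveI : NeZero ℓ := ⟨hF.out.ne_zero⟩
  obtain ⟨u, hu⟩ := exists_rep (thetaLat N m hζ Φ)
  have h := thetaLat_latAct_T N m hζ (∅ : Set ℕ) ℓ hF.out hℓN (Set.notMem_empty ℓ) Φ u
    ⟨heckeUnits hM u, heckeUnits_mem hM hD u u.2⟩ hu rfl
  rw [latAct_T] at h
  rw [h, hu, TEnd_mk]

/-- every lattice Hecke operator `latT N l` commutes with the action of `T^S` -/
theorem latT_commute_latAct (S : Set ℕ) (l : Nat.Primes) (t : ↥(heckeAlgebra N 2 S)) :
    Commute (latT N l) (latAct N S t) := by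
  have h1 : latT N l ∈ latAlg N := (latGen N l).2
  have h2 : latAct N S t ∈ latAlg N := latAct_mem_latAlg N S t
  have := mul_comm (⟨latT N l, h1⟩ : latAlg N) ⟨latAct N S t, h2⟩
  exact congrArg (fun x : latAlg N => (x : Module.End ℤ (Lam N))) this

/-- `U_q (θ (t • Φ)) = θ (t • U_q Φ)`: on the tower `U_q` commutes with the `T^S`-action -/
theorem UEnd_thetaLat_latAct (hζ : IsPrimitiveRoot ζ m) (S : Set ℕ) {q : ℕ} [hF : Fact q.Prime]
    (hqN : q ∣ N) (t : ↥(heckeAlgebra N 2 S)) (Φ : Lam N) :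
    UEnd N m hqN (thetaLat N m hζ (latAct N S t Φ))
      = thetaLat N m hζ (latAct N S t (latT N (⟨q, hF.out⟩ : Nat.Primes) Φ)) := by
  rw [← thetaLat_latT_of_dvd N m hζ hqN]
  have h := (latT_commute_latAct N S (⟨q, hF.out⟩ : Nat.Primes) t).eq
  have h2 := congrArg (fun e : Module.End ℤ (Lam N) => e Φ) h
  simp only [Module.End.mul_apply] at h2
  rw [h2]

/-- **`U_q` and `T_ℓ` commute on `Kum(F_N, m)`** (`q ∣ N`, `ℓ ∤ N` primes). -/
theorem UEnd_comm_TEnd {q : ℕ} [hFq : Fact q.Prime] (hqN : q ∣ N) {ℓ : ℕ} [hF : Fact ℓ.Prime]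
    (hℓN : ¬ ℓ ∣ N) (hM : @HNMemHyp N ℓ) (hD : @HNDivHyp N m ℓ) :
    haveI : NeZero ℓ := ⟨hF.out.ne_zero⟩
    UEnd N m hqN * TEnd hM hD = TEnd hM hD * UEnd N m hqN := by
  haveI : NeZero ℓ := ⟨hF.out.ne_zero⟩
  have hζ : IsPrimitiveRoot (Complex.exp (2 * Real.pi * Complex.I / m)) m :=
    Complex.isPrimitiveRoot_exp m (NeZero.ne m)
  refine LinearMap.ext fun x => ?_
  obtain ⟨Φ, rfl⟩ := thetaLat_surjective N m hζ x
  show UEnd N m hqN (TEnd hM hD (thetaLat N m hζ Φ)) = TEnd hM hD (UEnd N m hqN (thetaLat N m hζ Φ))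
  rw [← thetaLat_latT_of_not_dvd N m hζ hℓN hM hD, ← thetaLat_latT_of_dvd N m hζ hqN,
    ← thetaLat_latT_of_dvd N m hζ hqN, ← thetaLat_latT_of_not_dvd N m hζ hℓN hM hD]
  have h := (latT_commute N (⟨q, hFq.out⟩ : Nat.Primes) (⟨ℓ, hF.out⟩ : Nat.Primes)).eq
  have h2 := congrArg (fun e : Module.End ℤ (Lam N) => e Φ) h
  simp only [Module.End.mul_apply] at h2
  rw [h2]

end Fermat.Agent.GK.UQ
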