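/-
GATE-K (helper86): THE EICHLER–SHIMURA COMMUTATION TRICK.

On the Kummer groups `V = Kum(F_N, m)` the Hecke operator `T_ℓ` (`ℓ ∤ N m` prime) is determined by
the Galois action: for a Frobenius lift `φ` at `ℓ`, `φ² − T_ℓ φ + ℓ = 0` and `φ` is invertible, so
`T_ℓ = φ + ℓ φ⁻¹`.  Consequently EVERY additive map `f : Kum(F_N, m) → Kum(F_N', m)` commuting with
the Galois action intertwines the Hecke operators `T_ℓ` (`ℓ ∤ N N' m`) — no coset computation, no
base change of norms, no Atkin–Lehner theory: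

* `comp_eq_of_es`        : the abstract statement;
* `gal_frob_kum`         : the ES relation on `Kum(F_N, m)` (any modulus `m > 0`), unconditional;
* `TEnd_comp_of_gal_comm`: `f ∘ T_ℓ^N = T_ℓ^{N'} ∘ f` for Galois-equivariant `f`;
* `TEnd_comm_of_gal_comm`: an endomorphism of `Kum(F_N, m)` commuting with Galois commutes with `T_ℓ`
  (applies to `W_q`, `U_q`, `α^* α_*`, …).
-/
import Mathlib
import Fermat.Agent.GJ.Tate.S31Top
import Fermat.Agent.GJ.J1.K18sPowFinal
import Fermat.Agent.GJ.Kum.KumGate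
import Fermat.Agent.Common_helper32.FrobeniusExists

set_option autoImplicit false
set_option linter.style.haveILetI false
set_option linter.unusedSectionVars false

noncomputable section

namespace Fermat.Agent.GK.UQ

open AlgebraicCurve ModularCurve
open Fermat.Agent.GJ Fermat.Agent.GJ.KumGroup Fermat.Agent.GJ.Kum.KumType

local notation "GQ" => (AlgebraicClosure ℚ ≃ₐ[ℚ] AlgebraicClosure ℚ)

/-! ### The abstract trick -/

/-- If `g, g'` satisfy the same quadratic relation `X² − T X + c = 0` (with `T`, resp. `T'`), `g` is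
onto, and `f` intertwines `g` and `g'`, then `f` intertwines `T` and `T'`. -/
theorem comp_eq_of_es {R : Type*} [CommRing R] {V V' : Type*} [AddCommGroup V] [Module R V]
    [AddCommGroup V'] [Module R V'] (g T : Module.End R V) (g' T' : Module.End R V') (c : R)
    (hg : Function.Surjective g)
    (hES : g * g - T * g + c • (1 : Module.End R V) = 0)
    (hES' : g' * g' - T' * g' + c • (1 : Module.End R V') = 0)
    (f : V →ₗ[R] V') (hf : ∀ x, f (g x) = g' (f x)) (x : V) : f (T x) = T' (f x) := by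
  obtain ⟨y, rfl⟩ := hg x
  have h1 : g (g y) - T (g y) + c • y = 0 := by
    have := LinearMap.congr_fun hES y
    simpa using this
  have h2 : g' (g' (f y)) - T' (g' (f y)) + c • f y = 0 := by
    have := LinearMap.congr_fun hES' (f y)
    simpa using this
  have e1 : T (g y) = g (g y) + c • y := by
    rw [← sub_eq_zero]
    have : T (g y) - (g (g y) + c • y) = -(g (g y) - T (g y) + c • y) := by abel
    rw [this, h1, neg_zero]
  have e2 : T' (g' (f y)) = g' (g' (f y)) + c • f y := by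
    rw [← sub_eq_zero]
    have : T' (g' (f y)) - (g' (g' (f y)) + c • f y)
        = -(g' (g' (f y)) - T' (g' (f y)) + c • f y) := by abel
    rw [this, h2, neg_zero]
  rw [e1, map_add, map_smul, hf, hf]
  exact e2.symm

/-! ### The ES relation on `Kum(F_N, m)` -/

section ES

variable (N : ℕ) [NeZero N] (m : ℕ)

/-- the Hecke operator `T_ℓ` on `Kum(F_N, m)`, `ℓ ∤ N` prime -/
def kumTl {ℓ : ℕ} (hℓ : ℓ.Prime) (hℓN : ¬ ℓ ∣ N) :
    Module.End (ZMod m) (Additive (Kum Kb (FK N) m)) :=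
  @TEnd N ℓ ⟨hℓ.ne_zero⟩ m (Fermat.Agent.GJ.Kum.KumGate.hnMemHyp N hℓ hℓN)
    (Fermat.Agent.GJ.Kum.KumGate.hnDivHyp N m hℓ hℓN)

/-- **Eichler–Shimura on `Kum(F_N, m)`**, any modulus `m > 0`, `ℓ ∤ N m`, any Frobenius lift. -/
theorem gal_frob_kum (hm : 0 < m) {ℓ : ℕ} (hℓ : ℓ.Prime) (hℓNm : ¬ ℓ ∣ N * m)
    (A : ValuationSubring Kb) (hA : A.LiesOverPrime ℓ) (τ : GQ) (hτ : A.IsFrobeniusAt τ ℓ) :
    gal N m τ * gal N m τ
      - kumTl N m hℓ (fun h => hℓNm (Dvd.dvd.mul_right h m)) * gal N m τ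
      + (ℓ : ZMod m) • (1 : Module.End (ZMod m) (Additive (Kum Kb (FK N) m))) = 0 :=
  gal_frob N m hℓ _ _
    (Fermat.Agent.GJ.Tate.S31Top.es_hyps_pow N Fermat.Agent.GJ.J1.K18sPowFinal.k18sPow hm hℓ hℓNm).2
    A hA τ hτ

theorem gal_surjective (σ : GQ) : Function.Surjective (gal N m σ) := by
  intro x
  refine ⟨gal N m σ⁻¹ x, ?_⟩
  rw [← Module.End.mul_apply, ← map_mul, mul_inv_cancel, map_one]
  rfl

end ES

/-! ### Galois-equivariant maps are Hecke-equivariant -/

section Comm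

variable (N N' : ℕ) [NeZero N] [NeZero N'] (m : ℕ)

/-- **Galois-equivariant ⟹ `T_ℓ`-equivariant**, between two levels. -/
theorem TEnd_comp_of_gal_comm (hm : 0 < m) {ℓ : ℕ} (hℓ : ℓ.Prime) (hℓNm : ¬ ℓ ∣ N * m)
    (hℓN'm : ¬ ℓ ∣ N' * m)
    (f : Additive (Kum Kb (FK N) m) →ₗ[ZMod m] Additive (Kum Kb (FK N') m))
    (hf : ∀ (σ : GQ) x, f (gal N m σ x) = gal N' m σ (f x)) (x : Additive (Kum Kb (FK N) m)) :
    f (kumTl N m hℓ (fun h => hℓNm (Dvd.dvd.mul_right h m)) x)
      = kumTl N' m hℓ (fun h => hℓN'm (Dvd.dvd.mul_right h m)) (f x) := by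
  obtain ⟨A, τ, hA, hτ⟩ := Fermat.Agent.Common_helper32.exists_isFrobeniusAt ℓ hℓ
  exact comp_eq_of_es (gal N m τ) _ (gal N' m τ) _ (ℓ : ZMod m) (gal_surjective N m τ)
    (gal_frob_kum N m hm hℓ hℓNm A hA τ hτ) (gal_frob_kum N' m hm hℓ hℓN'm A hA τ hτ) f
    (hf τ) x

end Comm

section CommEnd

variable (N : ℕ) [NeZero N] (m : ℕ)

/-- **an endomorphism of `Kum(F_N, m)` commuting with Galois commutes with every `T_ℓ`**,
`ℓ ∤ N m`. -/
theorem TEnd_comm_of_gal_comm (hm : 0 < m) {ℓ : ℕ} (hℓ : ℓ.Prime) (hℓNm : ¬ ℓ ∣ N * m)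
    (E : Module.End (ZMod m) (Additive (Kum Kb (FK N) m)))
    (hE : ∀ σ : GQ, E * gal N m σ = gal N m σ * E) :
    E * kumTl N m hℓ (fun h => hℓNm (Dvd.dvd.mul_right h m))
      = kumTl N m hℓ (fun h => hℓNm (Dvd.dvd.mul_right h m)) * E := by
  refine LinearMap.ext fun x => ?_
  exact TEnd_comp_of_gal_comm N N m hm hℓ hℓNm hℓNm E
    (fun σ y => LinearMap.congr_fun (hE σ) y) x

end CommEnd

end Fermat.Agent.GK.UQ
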