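/-
GATE-K / KU (helper86), file 6: `ℚ̄`-algebra endomorphisms of `F_M` permuting the generators
`j(q^d)` commute with the coefficientwise Galois action; in particular the Fricke involution does
(it is defined over `ℚ`).
-/
import Mathlib
import Fermat.Agent.GK.UQ.Fricke

set_option autoImplicit false
set_option linter.style.haveILetI false

noncomputable section

namespace Fermat.Agent.GK.UQ

open ModularCurve AlgebraicCurve Fermat.Agent.S24 Fermat.Agent.S24_helper82
open Fermat.Agent.S24_helper62 Fermat.Agent.GJ.HN

local notation "GQ" => (AlgebraicClosure ℚ ≃ₐ[ℚ] AlgebraicClosure ℚ)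

variable (M : ℕ) [NeZero M]

/-- the generators `j(q^d)` have rational coefficients, so Galois fixes them -/
theorem arithmeticRingAut_jdF (σ : GQ) (d : ℕ) [NeZero d] (hd : d ∣ M) :
    arithmeticRingAut (modularFunctionFieldFull M) σ (jdF M d hd) = jdF M d hd := by
  apply Subtype.ext
  show coeffMap ((σ : Kbar ≃ₐ[ℚ] Kbar) : Kbar →+* Kbar) (jdSeries d) = jdSeries d
  exact coeffMap_coeffEmb σ _

theorem arithmeticRingAut_gF (σ : GQ) (d : DivIdx M) :
    arithmeticRingAut (modularFunctionFieldFull M) σ (gF M d) = gF M d :=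
  arithmeticRingAut_jdF M σ d.1 d.2

/-- **an algebra endomorphism of `F_M` sending generators to generators commutes with Galois** -/
theorem algHom_comm_arithmeticRingAut (w : FN M →ₐ[Kbar] FN M)
    (hw : ∀ d : DivIdx M, ∃ d' : DivIdx M, w (gF M d) = gF M d') (σ : GQ) (f : FN M) :
    w (arithmeticRingAut (modularFunctionFieldFull M) σ f)
      = arithmeticRingAut (modularFunctionFieldFull M) σ (w f) := by
  set A := arithmeticRingAut (L := Kbar) (modularFunctionFieldFull M) σ with hA
  let φ : FN M →ₐ[Kbar] FN M :=
    { toRingHom := A.symm.toRingHom.comp (w.toRingHom.comp A.toRingHom)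
      commutes' := fun c => by
        show A.symm (w (A (algebraMap Kbar (FN M) c))) = algebraMap Kbar (FN M) c
        rw [hA, arithmeticRingAut_algebraMap, AlgHom.commutes, ← arithmeticRingAut_algebraMap
          (modularFunctionFieldFull M) σ c, ← hA, RingEquiv.symm_apply_apply] }
  have hφ : ∀ x, φ x = A.symm (w (A x)) := fun x => rfl
  have h : φ = w := by
    apply algHom_ext_FN
    intro d _ hd
    show φ (gF M ⟨d, hd⟩) = w (gF M ⟨d, hd⟩)
    obtain ⟨d', hd'⟩ := hw ⟨d, hd⟩
    rw [hφ, hA, arithmeticRingAut_gF, hd', ← hA, RingEquiv.symm_apply_eq, hA,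
      arithmeticRingAut_gF]
  have h2 := DFunLike.congr_fun h f
  rw [hφ, RingEquiv.symm_apply_eq] at h2
  exact h2

/-- **the Fricke involution commutes with the Galois action** -/
theorem frickeEnd_arithmeticRingAut (σ : GQ) (f : FN M) :
    frickeEnd M (arithmeticRingAut (modularFunctionFieldFull M) σ f)
      = arithmeticRingAut (modularFunctionFieldFull M) σ (frickeEnd M f) :=
  algHom_comm_arithmeticRingAut M (frickeEnd M) (fun d => ⟨swapIdx M d, frickeEnd_gF M d⟩) σ f

theorem frickeAut_arithmeticRingAut (σ : GQ) (f : FN M) :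
    frickeAut M (arithmeticRingAut (modularFunctionFieldFull M) σ f)
      = arithmeticRingAut (modularFunctionFieldFull M) σ (frickeAut M f) :=
  frickeEnd_arithmeticRingAut M σ f

end Fermat.Agent.GK.UQ
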